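import Fermat.Agent.S14.H74.Defs
import Fermat.Agent.S14.N3H850.ZetaBound

/-!
# S14/N1 (helper74): summability and the upper bound for the sums over ideals (piece Z)

Uses the landed `Fermat.Agent.S14.N3H850.exists_sum_bound` (helper850).
-/

namespace Fermat.Agent.S14.H74

open NumberField

open scoped nonZeroDivisors

variable (K : Type*) [Field K] [NumberField K]

theorem one_le_absNorm (I : (Ideal (𝓞 K))⁰) : (1 : ℝ) ≤ Ideal.absNorm (I : Ideal (𝓞 K)) := by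
  have h : Ideal.absNorm (I : Ideal (𝓞 K)) ≠ 0 := by
    rw [Ne, Ideal.absNorm_eq_zero_iff]
    exact nonZeroDivisors.coe_ne_zero I
  exact_mod_cast Nat.one_le_iff_ne_zero.mpr h

theorem absNorm_rpow_nonneg (s : ℝ) (I : (Ideal (𝓞 K))⁰) :
    0 ≤ (Ideal.absNorm (I : Ideal (𝓞 K)) : ℝ) ^ (-s) :=
  Real.rpow_nonneg (Nat.cast_nonneg _) _

/-- Uniform bound for finite sums over nonzero ideals. -/
theorem exists_finset_sum_bound : ∃ Z : ℝ, 0 < Z ∧ ∀ s : ℝ, 1 < s → s ≤ 2 →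
    ∀ T : Finset (Ideal (𝓞 K))⁰,
      ∑ I ∈ T, (Ideal.absNorm (I : Ideal (𝓞 K)) : ℝ) ^ (-s) ≤ Z / (s - 1) := by
  obtain ⟨Z, hZ, h⟩ := Fermat.Agent.S14.N3H850.exists_sum_bound K
  refine ⟨Z, hZ, fun s hs1 hs2 T ↦ ?_⟩
  have h1 := h s hs1 hs2 (T.map ⟨Subtype.val, Subtype.val_injective⟩) (by
    intro I hI
    rw [Finset.mem_map] at hI
    obtain ⟨I', -, rfl⟩ := hI
    exact nonZeroDivisors.coe_ne_zero I')
  rwa [Finset.sum_map] at h1

theorem idealZeta_summable {s : ℝ} (hs : 1 < s) :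
    Summable fun I : (Ideal (𝓞 K))⁰ ↦ (Ideal.absNorm (I : Ideal (𝓞 K)) : ℝ) ^ (-s) := by
  obtain ⟨Z, hZ, h⟩ := exists_finset_sum_bound K
  have h2 : Summable fun I : (Ideal (𝓞 K))⁰ ↦
      (Ideal.absNorm (I : Ideal (𝓞 K)) : ℝ) ^ (-(min s 2)) :=
    summable_of_sum_le (fun I ↦ absNorm_rpow_nonneg K _ I)
      (h (min s 2) (lt_min hs (by norm_num)) (min_le_right _ _))
  refine Summable.of_nonneg_of_le (fun I ↦ absNorm_rpow_nonneg K _ I) (fun I ↦ ?_) h2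
  exact Real.rpow_le_rpow_of_exponent_le (one_le_absNorm K I) (neg_le_neg (min_le_left _ _))

theorem classZeta_summable (C : ClassGroup (𝓞 K)) {s : ℝ} (hs : 1 < s) :
    Summable fun I : {I : (Ideal (𝓞 K))⁰ // ClassGroup.mk0 I = C} ↦
      (Ideal.absNorm (I.1 : Ideal (𝓞 K)) : ℝ) ^ (-s) :=
  (idealZeta_summable K hs).comp_injective Subtype.val_injective

theorem classZeta_nonneg (C : ClassGroup (𝓞 K)) (s : ℝ) : 0 ≤ classZeta K C s :=
  tsum_nonneg fun I ↦ absNorm_rpow_nonneg K s I.1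

theorem idealZeta_le : ∃ Z : ℝ, 0 < Z ∧ ∀ s : ℝ, 1 < s → s ≤ 2 → idealZeta K s ≤ Z / (s - 1) := by
  obtain ⟨Z, hZ, h⟩ := exists_finset_sum_bound K
  exact ⟨Z, hZ, fun s hs1 hs2 ↦
    (idealZeta_summable K hs1).tsum_le_of_sum_le (h s hs1 hs2)⟩

theorem classZeta_le_idealZeta (C : ClassGroup (𝓞 K)) {s : ℝ} (hs : 1 < s) :
    classZeta K C s ≤ idealZeta K s :=
  tsum_comp_le_tsum_of_inj (idealZeta_summable K hs) (fun I ↦ absNorm_rpow_nonneg K s I)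
    Subtype.val_injective

theorem classZeta_le : ∃ Z : ℝ, 0 < Z ∧ ∀ s : ℝ, 1 < s → s ≤ 2 → ∀ C : ClassGroup (𝓞 K),
    classZeta K C s ≤ Z / (s - 1) := by
  obtain ⟨Z, hZ, h⟩ := idealZeta_le K
  exact ⟨Z, hZ, fun s hs1 hs2 C ↦ (classZeta_le_idealZeta K C hs1).trans (h s hs1 hs2)⟩

/-- The sum over all ideals splits along the classes. -/
theorem idealZeta_eq_sum {s : ℝ} (hs : 1 < s) :
    idealZeta K s = ∑ C : ClassGroup (𝓞 K), classZeta K C s := by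
  have h1 := (idealZeta_summable K hs).hasSum.tsum_fiberwise
    (fun I : (Ideal (𝓞 K))⁰ ↦ ClassGroup.mk0 I)
  have h2 : (fun C : ClassGroup (𝓞 K) ↦ ∑' I : ((fun I : (Ideal (𝓞 K))⁰ ↦ ClassGroup.mk0 I) ⁻¹'
      {C} : Set (Ideal (𝓞 K))⁰), (Ideal.absNorm ((I : (Ideal (𝓞 K))⁰) : Ideal (𝓞 K)) : ℝ) ^ (-s))
      = fun C ↦ classZeta K C s := rfl
  rw [h2] at h1
  exact h1.unique (hasSum_fintype _)

end Fermat.Agent.S14.H74
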