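import Fermat.Agent.S14.H74.Orbit
import Fermat.Agent.S14.H74.Zeta

/-!
# S14/N1 (helper74): ideals in a class and principal multiples of a fixed ideal (piece P4)
-/

namespace Fermat.Agent.S14.H74

open NumberField

open scoped nonZeroDivisors

variable {K : Type*} [Field K] [NumberField K]

/-- Multiplication by `J` identifies the ideals of the class `C` with the nonzero principal
ideals contained in `J`, when `J` lies in the class `C⁻¹`. -/
noncomputable def classEquiv {C : ClassGroup (𝓞 K)} {J : (Ideal (𝓞 K))⁰}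
    (hJ : ClassGroup.mk0 J = C⁻¹) :
    {I : (Ideal (𝓞 K))⁰ // ClassGroup.mk0 I = C} ≃ PJ (J : Ideal (𝓞 K)) :=
  Equiv.ofBijective (fun I ↦ ⟨(I.1 : Ideal (𝓞 K)) * (J : Ideal (𝓞 K)),
    nonZeroDivisors.coe_ne_zero (I.1 * J),
    (ClassGroup.mk0_eq_one_iff (I.1 * J).2).mp (by rw [map_mul, I.2, hJ, mul_inv_cancel]),
    Ideal.mul_le_right⟩) (by
    constructor
    · intro I I' h
      have h1 : (I.1 : Ideal (𝓞 K)) * (J : Ideal (𝓞 K)) = (I'.1 : Ideal (𝓞 K)) * J :=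
        congrArg Subtype.val h
      have h2 : (I.1 : Ideal (𝓞 K)) = I'.1 :=
        mul_right_cancel₀ (nonZeroDivisors.coe_ne_zero J) h1
      exact Subtype.ext (Subtype.ext h2)
    · rintro ⟨I', hI'0, hI'p, hI'J⟩
      obtain ⟨I'', rfl⟩ := Ideal.dvd_iff_le.mpr hI'J
      have hI''0 : I'' ≠ ⊥ := by
        rintro rfl
        exact hI'0 (by simp)
      let I0 : (Ideal (𝓞 K))⁰ := ⟨I'', mem_nonZeroDivisors_of_ne_zero hI''0⟩
      have hmk : ClassGroup.mk0 I0 = C := by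
        have h1 : ClassGroup.mk0 (J * I0) = 1 := by
          rw [ClassGroup.mk0_eq_one_iff (J * I0).2]
          exact hI'p
        rw [map_mul, hJ] at h1
        exact (inv_mul_eq_one.mp h1).symm
      refine ⟨⟨I0, hmk⟩, Subtype.ext ?_⟩
      show I'' * (J : Ideal (𝓞 K)) = (J : Ideal (𝓞 K)) * I''
      exact mul_comm _ _)

theorem classEquiv_apply {C : ClassGroup (𝓞 K)} {J : (Ideal (𝓞 K))⁰}
    (hJ : ClassGroup.mk0 J = C⁻¹) (I : {I : (Ideal (𝓞 K))⁰ // ClassGroup.mk0 I = C}) :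
    (classEquiv hJ I).1 = (I.1 : Ideal (𝓞 K)) * (J : Ideal (𝓞 K)) := rfl

/-- **P4**. -/
theorem classZeta_eq {C : ClassGroup (𝓞 K)} {J : (Ideal (𝓞 K))⁰}
    (hJ : ClassGroup.mk0 J = C⁻¹) (s : ℝ) :
    classZeta K C s = (Ideal.absNorm (J : Ideal (𝓞 K)) : ℝ) ^ s *
      ∑' I : PJ (J : Ideal (𝓞 K)), (Ideal.absNorm I.1 : ℝ) ^ (-s) := by
  have hJ1 : (0 : ℝ) < Ideal.absNorm (J : Ideal (𝓞 K)) := by
    have := one_le_absNorm K J
    linarith
  rw [← (classEquiv hJ).tsum_eq, ← tsum_mul_left]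
  unfold classZeta
  refine tsum_congr fun I ↦ ?_
  rw [classEquiv_apply, map_mul, Nat.cast_mul, Real.mul_rpow (Nat.cast_nonneg _) hJ1.le,
    mul_comm, mul_assoc, ← Real.rpow_add hJ1, neg_add_cancel, Real.rpow_zero, mul_one]

end Fermat.Agent.S14.H74
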