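import Fermat.Agent.S14.H74.DensityAsm

/-!
# S14 (helper74): `Spec.DensityStatement`
-/

set_option autoImplicit false

namespace Fermat.Agent.S14.H74

open NumberField Ideal nonZeroDivisors IsDedekindDomain
open Fermat.Agent.S14.H34

/-- The standard injective character of `Multiplicative (ZMod p)`. -/
noncomputable def stdChar (p : ℕ) [NeZero p] : Multiplicative (ZMod p) →* ℂˣ :=
  (ZMod.stdAddChar (N := p)).toMonoidHom.toHomUnits

theorem stdChar_injective (p : ℕ) [NeZero p] : Function.Injective (stdChar p) := by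
  intro a b h
  have h1 : ((stdChar p a : ℂˣ) : ℂ) = ((stdChar p b : ℂˣ) : ℂ) := by rw [h]
  have h2 : ZMod.stdAddChar (N := p) (Multiplicative.toAdd a) =
      ZMod.stdAddChar (N := p) (Multiplicative.toAdd b) := h1
  exact Multiplicative.toAdd.injective (ZMod.injective_stdAddChar h2)

theorem multiplicative_zmod_pow (p : ℕ) [NeZero p] (a : Multiplicative (ZMod p)) :
    a ^ p = 1 := by
  apply Multiplicative.toAdd.injective
  rw [toAdd_pow, toAdd_one, nsmul_eq_mul, ZMod.natCast_self, zero_mul]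

theorem multiplicative_zmod_eq_one_of_pow {p : ℕ} [Fact p.Prime] {k : ℕ} (hk0 : 0 < k)
    (hkp : k < p) {a : Multiplicative (ZMod p)} (h : a ^ k = 1) : a = 1 := by
  have h1 : (k : ZMod p) * Multiplicative.toAdd a = 0 := by
    have := congrArg Multiplicative.toAdd h
    rwa [toAdd_pow, toAdd_one, nsmul_eq_mul] at this
  have hk : (k : ZMod p) ≠ 0 := by
    rw [Ne, ZMod.natCast_eq_zero_iff]
    exact Nat.not_dvd_of_pos_of_lt hk0 hkp
  apply Multiplicative.toAdd.injective
  rw [toAdd_one]
  exact (mul_eq_zero.mp h1).resolve_left hk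

/-- **(N) Density.** -/
theorem densityStatement : Spec.DensityStatement := by
  intro p _ h5 K _ _ _ χ hχ
  have hp : p.Prime := Fact.out
  have : NeZero p := ⟨hp.ne_zero⟩
  set χ' : ClassGroup (𝓞 K) →* ℂˣ := (stdChar p).comp χ with hχ'
  have hχ'p : χ' ^ p = 1 := by
    ext C
    simp only [MonoidHom.pow_apply, hχ', MonoidHom.comp_apply, MonoidHom.one_apply,
      Units.val_one]
    rw [← map_pow, multiplicative_zmod_pow, map_one, Units.val_one]
  have hχ'k : ∀ k : ℕ, 0 < k → k < p → χ' ^ k ≠ 1 := by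
    intro k hk0 hkp h
    apply hχ
    ext C
    have h1 := DFunLike.congr_fun h C
    simp only [MonoidHom.pow_apply, hχ', MonoidHom.comp_apply, MonoidHom.one_apply] at h1
    rw [← map_pow, ← map_one (stdChar p)] at h1
    have h2 := stdChar_injective p h1
    rw [multiplicative_zmod_eq_one_of_pow hk0 hkp h2]
    rfl
  have hN1 : ∀ k : ℕ, 0 < k → k < p → LBounded K (χ' ^ k) := fun k h0 hk ↦
    classL_bounded K _ (hχ'k k h0 hk)
  have hζ := IsCyclotomicExtension.zeta_spec p ℚ K
  obtain ⟨v, hv1, hv2, hv3, hv4, hv5⟩ := existsPrimeOfDensity K (H163.zetaBounds K)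
    (H163.goodMass K) (H163.charBound K) (H703.kummerBound K) p hp (by omega) _ hζ χ' hχ'p hN1
    (Spec.delta p K) (fun y hy ↦ H285.delta_not_pow p h5 K ⟨y, hy.symm⟩)
  refine ⟨primeNZ v, ⟨v.isPrime, hv1, hv2, ?_⟩, ?_⟩
  · rintro ⟨x, hx⟩
    exact hv5 x hx
  · intro h
    apply hv4
    show stdChar p (χ _) = 1
    rw [h, map_one]

end Fermat.Agent.S14.H74
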