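import Fermat.Agent.S14.H74.Main
import Fermat.Agent.S14.H163.GoodMass
import Fermat.Agent.S14.H703.Kummer
import Fermat.Agent.S14.H285.DeltaNotPow

/-!
# S14 (helper74): the density block `Spec.DensityStatement`

Assembly of the pieces on main:
* N1 (`H74.classL_bounded`), Z/A/C (`H163.zetaBounds`, `H163.goodMass`, `H163.charBound`),
  N3 (`H703.kummerBound`), ND (`H285.delta_not_pow`).
* `densityArith` and `existsPrimeOfDensity` are helper34's `H34/Density.lean`
  (`density_arith`, `exists_prime_of_density_of`), copied verbatim under this namespace.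
-/

set_option autoImplicit false
set_option linter.unusedSectionVars false
set_option linter.unusedVariables false

namespace Fermat.Agent.S14.H74

open NumberField Ideal nonZeroDivisors IsDedekindDomain
open Fermat.Agent.S14.H34

noncomputable section

variable (K : Type*) [Field K] [NumberField K]

/-- real-analysis core of the final contradiction -/
theorem densityArith {p : ℕ} (hp3 : 3 ≤ p) {c D t ζ : ℝ} (hc : 0 < c) (hD : 0 < D)
    (ht : 0 < t) (ht1 : t ≤ 1) (htD : D * t < c ^ (p - 1))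
    (hζ : c / t ≤ ζ) (h : ζ ^ p ≤ D * ζ / t) : False := by
  have hζ0 : 0 < ζ := lt_of_lt_of_le (div_pos hc ht) hζ
  obtain ⟨m, rfl⟩ : ∃ m, p = m + 3 := ⟨p - 3, by omega⟩
  have h1 : ζ ^ (m + 2) ≤ D / t := by
    have h2 : ζ ^ (m + 2) * ζ ≤ (D / t) * ζ := by
      calc ζ ^ (m + 2) * ζ = ζ ^ (m + 3) := by ring
        _ ≤ D * ζ / t := h
        _ = (D / t) * ζ := by ring
    exact le_of_mul_le_mul_right h2 hζ0
  have h2 : (c / t) ^ (m + 2) ≤ D / t :=
    le_trans (pow_le_pow_left₀ (div_pos hc ht).le hζ _) h1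
  rw [div_pow, div_le_div_iff₀ (pow_pos ht _) ht] at h2
  have h3 : c ^ (m + 2) * t ≤ D * t * t := by
    calc c ^ (m + 2) * t ≤ D * t ^ (m + 2) := h2
      _ = D * (t ^ m * t * t) := by ring
      _ ≤ D * (1 * t * t) := by
          gcongr
          exact pow_le_one₀ ht.le ht1
      _ = D * t * t := by ring
  have h4 : c ^ (m + 2) ≤ D * t := le_of_mul_le_mul_right h3 ht
  simp only [show m + 3 - 1 = m + 2 by omega] at htD
  linarith

/-- **DENSITY** (assembled from the four interface statements): a prime of degree one,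
prime to `p η`, outside the kernel of `χ`, modulo which `η` is not a `p`-th power. -/
theorem existsPrimeOfDensity (hZ : ZetaBounds K) (hA : GoodMass K) (hC : CharBound K)
    (hN : KummerBound K) (p : ℕ) (hp : p.Prime) (hp3 : 3 ≤ p)
    (ζ : K) (hζ : IsPrimitiveRoot ζ p)
    (χ : ClassGroup (𝓞 K) →* ℂˣ) (hχp : χ ^ p = 1)
    (hN1 : ∀ k : ℕ, 0 < k → k < p → LBounded K (χ ^ k))
    (η : 𝓞 K) (hη : ∀ y : K, y ^ p ≠ (η : K)) :
    ∃ v : HeightOneSpectrum (𝓞 K), (absNorm v.asIdeal).Prime ∧ absNorm v.asIdeal ≠ p ∧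
      η ∉ v.asIdeal ∧ χ (ClassGroup.mk0 (primeNZ v)) ≠ 1 ∧
      ∀ y : 𝓞 K, y ^ p - η ∉ v.asIdeal := by
  classical
  by_contra hcon
  push Not at hcon
  have hη0 : η ≠ 0 := by
    rintro rfl
    exact hη 0 (by simp [hp.ne_zero])
  have hpη : Ideal.span {(p : 𝓞 K) * η} ≠ 0 := by
    rw [Ne, Ideal.zero_eq_bot, Ideal.span_singleton_eq_bot]
    exact mul_ne_zero (Nat.cast_ne_zero.mpr hp.ne_zero) hη0
  let Bad : Finset (HeightOneSpectrum (𝓞 K)) := (Ideal.finite_factors hpη).toFinset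
  have hBad : ∀ v : HeightOneSpectrum (𝓞 K), v ∉ Bad →
      (p : 𝓞 K) ∉ v.asIdeal ∧ η ∉ v.asIdeal := by
    intro v hv
    have hv' : ¬ v.asIdeal ∣ Ideal.span {(p : 𝓞 K) * η} := by
      simpa [Bad] using hv
    rw [Ideal.dvd_span_singleton] at hv'
    exact ⟨fun h => hv' (Ideal.mul_mem_right _ _ h), fun h => hv' (Ideal.mul_mem_left _ _ h)⟩
  obtain ⟨c, C, δ, hc, hδ, hZ⟩ := hZ
  obtain ⟨CA, hCA, hA⟩ := hA Bad
  obtain ⟨CC, hCC, hC⟩ := hC p hp χ hχp hN1
  obtain ⟨CN, δN, hCN, hδN, hN⟩ := hN p hp ζ hζ η hη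
  set D : ℝ := CA ^ p * CC * CN with hD
  have hDpos : 0 < D := by positivity
  set t : ℝ := min (min (δ / 2) (δN / 2)) (min 1 (c ^ (p - 1) / (2 * D))) with ht
  have ht0 : 0 < t := by
    simp only [ht, lt_min_iff]
    refine ⟨⟨by positivity, by positivity⟩, one_pos, by positivity⟩
  have ht1 : t ≤ 1 := (min_le_right _ _).trans (min_le_left _ _)
  have htδ : t < δ := lt_of_le_of_lt ((min_le_left _ _).trans (min_le_left _ _)) (by linarith)
  have htδN : t < δN :=
    lt_of_le_of_lt ((min_le_left _ _).trans (min_le_right _ _)) (by linarith)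
  have htD : D * t < c ^ (p - 1) := by
    have h1 : t ≤ c ^ (p - 1) / (2 * D) := (min_le_right _ _).trans (min_le_right _ _)
    have h2 : D * t ≤ D * (c ^ (p - 1) / (2 * D)) := by gcongr
    have h3 : D * (c ^ (p - 1) / (2 * D)) = c ^ (p - 1) / 2 := by
      field_simp
    have h4 : 0 < c ^ (p - 1) := by positivity
    linarith
  set s : ℝ := 1 + t with hs
  have hs1 : 1 < s := by linarith
  have hs2 : s ≤ 2 := by linarith
  have hst : s - 1 = t := by simp [hs]
  obtain ⟨hZl, hZu⟩ := hZ s hs1 (by linarith)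
  obtain ⟨T, hT, hTle⟩ := hA s hs1 hs2
  have hTA := hC s hs1 hs2 (T.filter fun v => χ (ClassGroup.mk0 (primeNZ v)) = 1)
    (fun v hv => (Finset.mem_filter.mp hv).2)
  have hTB := hN s hs1 (by linarith) (T.filter fun v => ¬ χ (ClassGroup.mk0 (primeNZ v)) = 1)
    (fun v hv => by
      obtain ⟨hvT, hvχ⟩ := Finset.mem_filter.mp hv
      obtain ⟨hvp, hvB⟩ := hT v hvT
      obtain ⟨h1, h2⟩ := hBad v hvB
      refine ⟨h1, h2, hcon v hvp ?_ h2 hvχ⟩
      intro hab
      apply h1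
      have := Ideal.absNorm_mem v.asIdeal
      rwa [hab] at this)
  set X : ℝ := ∏ v ∈ T.filter fun v => χ (ClassGroup.mk0 (primeNZ v)) = 1, (1 + pN s v)
  set Y : ℝ := ∏ v ∈ T.filter fun v => ¬ χ (ClassGroup.mk0 (primeNZ v)) = 1, (1 + pN s v)
  have hpN : ∀ v : HeightOneSpectrum (𝓞 K), 0 ≤ pN s v := fun v => by
    rw [pN_def]; positivity
  have hX : 0 ≤ X := Finset.prod_nonneg fun v _ => by have := hpN v; linarith
  have hY : 0 ≤ Y := Finset.prod_nonneg fun v _ => by have := hpN v; linarith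
  have hXY : ∏ v ∈ T, (1 + pN s v) = X * Y :=
    (Finset.prod_filter_mul_prod_filter_not T _ _).symm
  rw [hXY] at hTle
  rw [hst] at hZl hZu hTB
  have hζ0 : 0 < zetaI K s := lt_of_lt_of_le (div_pos hc ht0) hZl
  refine densityArith hp3 hc hDpos ht0 ht1 htD hZl ?_
  calc zetaI K s ^ p ≤ (CA * (X * Y)) ^ p := pow_le_pow_left₀ hζ0.le hTle _
    _ = CA ^ p * X ^ p * Y ^ p := by ring
    _ ≤ CA ^ p * (CC * zetaI K s) * (CN / t) := by gcongr
    _ = D * zetaI K s / t := by rw [hD]; ring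


end

end Fermat.Agent.S14.H74
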