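import Fermat.Agent.S14.H74.ClassSum

/-!
# S14/N1 (helper74): partial zeta functions of ideal classes differ by `O(1)` near `s = 1`

Main results (for an arbitrary number field `K`):
* `classZeta_sub_bounded` : `|ζ(s,C) - ζ(s,C')| ≤ B` for `1 < s ≤ 2`;
* `classL_bounded` : the `L`-series of a nontrivial character of the class group is bounded
  on `(1, 2]`.
-/

namespace Fermat.Agent.S14.H74

open NumberField NumberField.Units

open scoped nonZeroDivisors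

variable (K : Type*) [Field K] [NumberField K]

theorem tsum_top_eq (s : ℝ) :
    ∑' y : (⊤ : Ideal (𝓞 K)), FS K s (y : 𝓞 K) = ∑' x : 𝓞 K, FS K s x :=
  (Equiv.subtypeUnivEquiv (fun x : 𝓞 K ↦ (Submodule.mem_top : x ∈ (⊤ : Ideal (𝓞 K))))).tsum_eq
    (FS K s)

/-- `w ζ(s, 1)` is the smoothed sum over `𝓞 K`. -/
theorem torsionOrder_mul_classZeta_one {s : ℝ} (hs : 1 < s) :
    (torsionOrder K : ℝ) * classZeta K 1 s = ∑' x : 𝓞 K, FS K s x := by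
  have hJ : ClassGroup.mk0 (1 : (Ideal (𝓞 K))⁰) = (1 : ClassGroup (𝓞 K))⁻¹ := by
    rw [map_one, inv_one]
  have h1 := classZeta_eq hJ s
  have h2 := tsum_FS_eq (K := K) ((1 : (Ideal (𝓞 K))⁰) : Ideal (𝓞 K)) hs
  have h3 : (((1 : (Ideal (𝓞 K))⁰) : Ideal (𝓞 K))) = ⊤ := by
    rw [Submonoid.coe_one, Ideal.one_eq_top]
  have h4 : (Ideal.absNorm (((1 : (Ideal (𝓞 K))⁰) : Ideal (𝓞 K))) : ℝ) = 1 := by
    rw [h3, Ideal.absNorm_top, Nat.cast_one]
  rw [h4, Real.one_rpow, one_mul] at h1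
  have key : ∀ J' : Ideal (𝓞 K), J' = ⊤ →
      ∑' y : J', FS K s (y : 𝓞 K) = ∑' x : 𝓞 K, FS K s x := by
    rintro _ rfl
    exact tsum_top_eq K s
  rw [h1, ← h2, key _ h3]

/-- `w ζ(s, C) = N(J)^s ∑_{y ∈ J} FS s y` for `J` in the class `C⁻¹`. -/
theorem torsionOrder_mul_classZeta {C : ClassGroup (𝓞 K)} {J : (Ideal (𝓞 K))⁰}
    (hJ : ClassGroup.mk0 J = C⁻¹) {s : ℝ} (hs : 1 < s) :
    (torsionOrder K : ℝ) * classZeta K C s =
      (Ideal.absNorm (J : Ideal (𝓞 K)) : ℝ) ^ s * ∑' y : (J : Ideal (𝓞 K)), FS K s (y : 𝓞 K) := by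
  rw [classZeta_eq hJ s, tsum_FS_eq (K := K) (J : Ideal (𝓞 K)) hs]
  ring

/-- Comparison of the class `C` with the trivial class. -/
theorem exists_classZeta_sub_one_bound (C : ClassGroup (𝓞 K)) :
    ∃ B : ℝ, ∀ s : ℝ, 1 < s → s ≤ 2 → |classZeta K C s - classZeta K 1 s| ≤ B := by
  obtain ⟨J, hJ⟩ := ClassGroup.mk0_surjective C⁻¹
  obtain ⟨BJ, hBJ⟩ := exists_compare_bound (K := K) (J : Ideal (𝓞 K))
    (nonZeroDivisors.coe_ne_zero J)
  obtain ⟨Z, hZ0, hZ⟩ := classZeta_le K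
  have hw : (0 : ℝ) < torsionOrder K := Nat.cast_pos.mpr (torsionOrder_pos K)
  have hN1 : (1 : ℝ) ≤ Ideal.absNorm (J : Ideal (𝓞 K)) := one_le_absNorm K J
  set N : ℝ := ((Ideal.absNorm (J : Ideal (𝓞 K)) : ℕ) : ℝ) with hN
  set w : ℝ := ((torsionOrder K : ℕ) : ℝ) with hwdef
  refine ⟨((N - 1) * (w * Z + BJ) + BJ) / w, fun s hs1 hs2 ↦ ?_⟩
  have hs0 : 0 < s - 1 := by linarith
  have h1 := torsionOrder_mul_classZeta_one K hs1
  have h2 := torsionOrder_mul_classZeta K hJ hs1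
  have hcmp := hBJ s hs1 hs2
  have hBJ0 : 0 ≤ BJ := (abs_nonneg _).trans hcmp
  set S0 : ℝ := ∑' x : 𝓞 K, FS K s x with hS0
  set SJ : ℝ := ∑' y : (J : Ideal (𝓞 K)), FS K s (y : 𝓞 K) with hSJ
  have hSJ0 : 0 ≤ SJ := tsum_nonneg fun y ↦ FS_nonneg s _
  have hζ1 := hZ s hs1 hs2 1
  -- `N ^ s = N ^ (s - 1) * N`
  have hpow : N ^ s = N ^ (s - 1) * N := by
    rw [← Real.rpow_add_one (by linarith : N ≠ 0)]
    congr 1
    ring
  -- Bernoulli
  have hbern : N ^ (s - 1) ≤ 1 + (s - 1) * (N - 1) := by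
    have := _root_.rpow_one_add_le_one_add_mul_self (s := N - 1) (by linarith) hs0.le
      (by linarith : s - 1 ≤ 1)
    rwa [add_sub_cancel] at this
  have hpow1 : 1 ≤ N ^ (s - 1) := Real.one_le_rpow hN1 hs0.le
  -- `N * SJ ≤ w Z / (s - 1) + BJ`
  have hNSJ : N * SJ ≤ w * (Z / (s - 1)) + BJ := by
    have a1 := (abs_le.mp hcmp).1
    have a2 : w * classZeta K 1 s ≤ w * (Z / (s - 1)) := mul_le_mul_of_nonneg_left hζ1 hw.le
    linarith
  have hNSJ0 : 0 ≤ N * SJ := mul_nonneg (by linarith) hSJ0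
  have key : w * (classZeta K C s - classZeta K 1 s) =
      (N ^ (s - 1) - 1) * (N * SJ) + (N * SJ - S0) := by
    rw [mul_sub, h1, h2, hpow]
    ring
  have hb1 : (N ^ (s - 1) - 1) * (N * SJ) ≤ (N - 1) * (w * Z + BJ) := by
    calc (N ^ (s - 1) - 1) * (N * SJ) ≤ ((s - 1) * (N - 1)) * (w * (Z / (s - 1)) + BJ) :=
          mul_le_mul (by linarith) hNSJ hNSJ0 (mul_nonneg hs0.le (by linarith))
      _ = (N - 1) * (w * Z + (s - 1) * BJ) := by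
          field_simp
      _ ≤ (N - 1) * (w * Z + BJ) := by
          have : (s - 1) * BJ ≤ BJ := by nlinarith
          exact mul_le_mul_of_nonneg_left (by linarith) (by linarith)
  have hb2 : 0 ≤ (N ^ (s - 1) - 1) * (N * SJ) := mul_nonneg (by linarith) hNSJ0
  have hb3 : |N * SJ - S0| ≤ BJ := by rwa [abs_sub_comm]
  have hfin : |w * (classZeta K C s - classZeta K 1 s)| ≤ (N - 1) * (w * Z + BJ) + BJ := by
    rw [key]
    refine (abs_add_le _ _).trans ?_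
    rw [abs_of_nonneg hb2]
    linarith
  rw [abs_mul, abs_of_pos hw] at hfin
  rw [le_div_iff₀ hw, mul_comm]
  exact hfin

/-- **N1**: partial zeta functions of two ideal classes differ by a bounded function
near `s = 1`. -/
theorem classZeta_sub_bounded :
    ∃ B : ℝ, ∀ s : ℝ, 1 < s → s ≤ 2 → ∀ C C' : ClassGroup (𝓞 K),
      |classZeta K C s - classZeta K C' s| ≤ B := by
  choose B hB using exists_classZeta_sub_one_bound K
  refine ⟨2 * ∑ C : ClassGroup (𝓞 K), |B C|, fun s hs1 hs2 C C' ↦ ?_⟩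
  have h1 : ∀ D : ClassGroup (𝓞 K), |classZeta K D s - classZeta K 1 s| ≤
      ∑ C : ClassGroup (𝓞 K), |B C| := fun D ↦
    ((hB D s hs1 hs2).trans (le_abs_self _)).trans
      (Finset.single_le_sum (f := fun C ↦ |B C|) (fun _ _ ↦ abs_nonneg _) (Finset.mem_univ D))
  have h2 : classZeta K C s - classZeta K C' s =
      (classZeta K C s - classZeta K 1 s) - (classZeta K C' s - classZeta K 1 s) := by ring
  rw [h2]
  refine (abs_sub _ _).trans ?_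
  linarith [h1 C, h1 C']

theorem norm_classChar (χ : ClassGroup (𝓞 K) →* ℂˣ) (C : ClassGroup (𝓞 K)) :
    ‖((χ C : ℂˣ) : ℂ)‖ = 1 := by
  have h1 : ((χ C : ℂˣ) : ℂ) ^ (Fintype.card (ClassGroup (𝓞 K))) = 1 := by
    rw [← Units.val_pow_eq_pow_val, ← map_pow, pow_card_eq_one, map_one, Units.val_one]
  exact Complex.norm_eq_one_of_pow_eq_one h1 Fintype.card_ne_zero

theorem sum_classChar_eq_zero (χ : ClassGroup (𝓞 K) →* ℂˣ) (hχ : χ ≠ 1) :
    ∑ C : ClassGroup (𝓞 K), ((χ C : ℂˣ) : ℂ) = 0 := by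
  have h := sum_hom_units_eq_zero ((Units.coeHom ℂ).comp χ) (by
    intro h
    apply hχ
    ext C
    have := DFunLike.congr_fun h C
    simpa using this)
  simpa using h

/-- The `L`-series of a class group character, as a sum over the classes. -/
theorem classL_eq_sum (χ : ClassGroup (𝓞 K) →* ℂˣ) {s : ℝ} (hs : 1 < s) :
    ∑' I : (Ideal (𝓞 K))⁰, ((χ (ClassGroup.mk0 I) : ℂˣ) : ℂ) *
      (((Ideal.absNorm (I : Ideal (𝓞 K)) : ℝ) ^ (-s) : ℝ) : ℂ) =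
    ∑ C : ClassGroup (𝓞 K), ((χ C : ℂˣ) : ℂ) * ((classZeta K C s : ℝ) : ℂ) := by
  have hsum : Summable fun I : (Ideal (𝓞 K))⁰ ↦ ((χ (ClassGroup.mk0 I) : ℂˣ) : ℂ) *
      (((Ideal.absNorm (I : Ideal (𝓞 K)) : ℝ) ^ (-s) : ℝ) : ℂ) := by
    refine Summable.of_norm_bounded (idealZeta_summable K hs) fun I ↦ ?_
    rw [norm_mul, norm_classChar, one_mul, Complex.norm_real, Real.norm_eq_abs,
      abs_of_nonneg (absNorm_rpow_nonneg K s I)]
  have h1 := hsum.hasSum.tsum_fiberwise (fun I : (Ideal (𝓞 K))⁰ ↦ ClassGroup.mk0 I)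
  have h2 : ∀ C : ClassGroup (𝓞 K),
      ∑' I : ((fun I : (Ideal (𝓞 K))⁰ ↦ ClassGroup.mk0 I) ⁻¹' {C} : Set (Ideal (𝓞 K))⁰),
        ((χ (ClassGroup.mk0 (I : (Ideal (𝓞 K))⁰)) : ℂˣ) : ℂ) *
          (((Ideal.absNorm ((I : (Ideal (𝓞 K))⁰) : Ideal (𝓞 K)) : ℝ) ^ (-s) : ℝ) : ℂ) =
      ((χ C : ℂˣ) : ℂ) * ((classZeta K C s : ℝ) : ℂ) := by
    intro C
    have e : ((classZeta K C s : ℝ) : ℂ) =
        ∑' I : ((fun I : (Ideal (𝓞 K))⁰ ↦ ClassGroup.mk0 I) ⁻¹' {C} : Set (Ideal (𝓞 K))⁰),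
          (((Ideal.absNorm ((I : (Ideal (𝓞 K))⁰) : Ideal (𝓞 K)) : ℝ) ^ (-s) : ℝ) : ℂ) := by
      rw [← Complex.ofReal_tsum]
      rfl
    rw [e, ← tsum_mul_left]
    refine tsum_congr fun I ↦ ?_
    have hI : ClassGroup.mk0 (I : (Ideal (𝓞 K))⁰) = C := I.2
    rw [hI]
  simp_rw [h2] at h1
  exact h1.unique (hasSum_fintype _)

/-- The `L`-series of a nontrivial character of the class group is bounded on `(1, 2]`. -/
theorem classL_bounded (χ : ClassGroup (𝓞 K) →* ℂˣ) (hχ : χ ≠ 1) :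
    ∃ B : ℝ, ∀ s : ℝ, 1 < s → s ≤ 2 →
      ‖∑' I : (Ideal (𝓞 K))⁰, ((χ (ClassGroup.mk0 I) : ℂˣ) : ℂ) *
        (((Ideal.absNorm (I : Ideal (𝓞 K)) : ℝ) ^ (-s) : ℝ) : ℂ)‖ ≤ B := by
  obtain ⟨B, hB⟩ := classZeta_sub_bounded K
  refine ⟨Fintype.card (ClassGroup (𝓞 K)) * B, fun s hs1 hs2 ↦ ?_⟩
  rw [classL_eq_sum K χ hs1]
  have h0 : ∑ C : ClassGroup (𝓞 K), ((χ C : ℂˣ) : ℂ) * ((classZeta K 1 s : ℝ) : ℂ) = 0 := by
    rw [← Finset.sum_mul, sum_classChar_eq_zero K χ hχ, zero_mul]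
  have h1 : ∑ C : ClassGroup (𝓞 K), ((χ C : ℂˣ) : ℂ) * ((classZeta K C s : ℝ) : ℂ) =
      ∑ C : ClassGroup (𝓞 K), ((χ C : ℂˣ) : ℂ) *
        (((classZeta K C s - classZeta K 1 s : ℝ)) : ℂ) := by
    simp_rw [Complex.ofReal_sub, mul_sub]
    rw [Finset.sum_sub_distrib, h0, sub_zero]
  rw [h1]
  refine (norm_sum_le _ _).trans ?_
  calc ∑ C : ClassGroup (𝓞 K), ‖((χ C : ℂˣ) : ℂ) *
        (((classZeta K C s - classZeta K 1 s : ℝ)) : ℂ)‖
      ≤ ∑ _C : ClassGroup (𝓞 K), B := by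
        refine Finset.sum_le_sum fun C _ ↦ ?_
        rw [norm_mul, norm_classChar, one_mul, Complex.norm_real, Real.norm_eq_abs]
        exact hB s hs1 hs2 C 1
    _ = Fintype.card (ClassGroup (𝓞 K)) * B := by
        rw [Finset.sum_const, Finset.card_univ, nsmul_eq_mul]

end Fermat.Agent.S14.H74
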